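import Mathlib

/-!
# Support arguments for patched modules

A `Patched Λ A R 𝔞 I d` is a patched module `Λ ^ d` with commuting action of `A`, a surjection
`ψ : A → R`, such that scalars come from `A` (those of `𝔞` from `ker ψ`) and elements mapped into
`I` act by matrices with entries in `𝔞` (`I` is typically the annihilator of the unpatched module,
or the kernel of `R → T`). Supported primes of `R` contain `I` (`le_of_supp`), and if
`dim A ≤ dim Λ` the components of the support are components of `A` (`mem_minimalPrimes`).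
-/

set_option autoImplicit false

noncomputable section

open Polynomial

namespace Fermat.Agent.Patching

variable {Λ A R : Type*} [CommRing Λ] [CommRing A] [CommRing R]

/-- A patched module. -/
structure Patched (Λ A R : Type*) [CommRing Λ] [CommRing A] [CommRing R]
    (𝔞 : Ideal Λ) (I : Ideal R) (d : ℕ) where
  /-- the action of `A` on `Λ ^ d` -/
  act : A →+* Matrix (Fin d) (Fin d) Λ
  /-- the map to the unpatched ring -/
  ψ : A →+* R
  ψ_surjective : Function.Surjective ψ
  exists_scalar : ∀ l : Λ, ∃ a : A, act a = Matrix.scalar (Fin d) l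
  exists_scalar_of_mem : ∀ l ∈ 𝔞, ∃ a : A, act a = Matrix.scalar (Fin d) l ∧ ψ a = 0
  entry_mem : ∀ a : A, ψ a ∈ I → ∀ i j, act a i j ∈ 𝔞

namespace Patched

variable {𝔞 : Ideal Λ} {I : Ideal R} {d : ℕ} (D : Patched Λ A R 𝔞 I d)

/-- A prime is in the support if it contains the annihilator of the patched module. -/
def Supp (P : Ideal A) : Prop := RingHom.ker D.act ≤ P

/-- Cayley–Hamilton: an element acting with entries in an ideal `J` lies in every prime of the
support containing lifts of `J`. -/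
theorem mem_of_entry_mem {Q : Ideal A} (hQ : Q.IsPrime) (hsupp : D.Supp Q) {J : Ideal Λ}
    (hJ : ∀ l ∈ J, ∃ a ∈ Q, D.act a = Matrix.scalar (Fin d) l) {a : A}
    (ha : ∀ i j, D.act a i j ∈ J) : a ∈ Q := by
  classical
  rcases subsingleton_or_nontrivial Λ with hΛ | hΛ
  · exact hsupp (RingHom.mem_ker.mpr (Subsingleton.elim _ _))
  set M := D.act a with hM
  have hcoeff : ∀ i ∈ Finset.range d, M.charpoly.coeff i ∈ J := by
    intro i hi
    rw [← Ideal.Quotient.eq_zero_iff_mem, ← coeff_map, ← Matrix.charpoly_map]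
    have hM0 : M.map (Ideal.Quotient.mk J) = 0 :=
      Matrix.ext fun r s => Ideal.Quotient.eq_zero_iff_mem.mpr (ha r s)
    rw [hM0, Matrix.charpoly_zero, coeff_X_pow, Fintype.card_fin, if_neg]
    exact (Finset.mem_range.mp hi).ne
  choose c hcQ hc using fun i : {i // i ∈ Finset.range d} => hJ _ (hcoeff i i.2)
  have key : D.act (a ^ d + ∑ i : {i // i ∈ Finset.range d}, c i * a ^ (i : ℕ)) = 0 := by
    have h := Matrix.aeval_self_charpoly M
    have hdeg : M.charpoly.natDegree = d := by simp [Matrix.charpoly_natDegree_eq_dim]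
    rw [aeval_eq_sum_range, hdeg, Finset.sum_range_succ] at h
    have hlead : M.charpoly.coeff d = 1 := by
      have h1 := M.charpoly_monic.coeff_natDegree
      rwa [hdeg] at h1
    rw [hlead, one_smul, ← Finset.sum_attach] at h
    rw [map_add, map_sum, map_pow, add_comm, ← h]
    congr 1
    refine Finset.sum_congr rfl fun i _ => ?_
    rw [map_mul, map_pow, hc, Algebra.smul_def, Matrix.algebraMap_eq_diagonal]
    rfl
  have hmem : a ^ d + ∑ i : {i // i ∈ Finset.range d}, c i * a ^ (i : ℕ) ∈ Q :=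
    hsupp (RingHom.mem_ker.mpr key)
  exact hQ.mem_of_pow_mem d ((Submodule.add_mem_iff_left _
    (Ideal.sum_mem _ fun i _ => Ideal.mul_mem_right _ _ (hcQ i))).mp hmem)

/-- A prime of `R` in the patched support contains `I`. -/
theorem le_of_supp {x : Ideal R} (hx : x.IsPrime) (h : D.Supp (x.comap D.ψ)) : I ≤ x := by
  intro r hr
  obtain ⟨a, rfl⟩ := D.ψ_surjective r
  refine D.mem_of_entry_mem (Ideal.IsPrime.comap D.ψ) h (J := 𝔞) (fun l hl => ?_)
    (D.entry_mem a hr)
  obtain ⟨b, hb, hb0⟩ := D.exists_scalar_of_mem l hl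
  exact ⟨b, by rw [Ideal.mem_comap, hb0]; exact zero_mem _, hb⟩

section Domain

variable [IsDomain Λ]

/-- Scalars are not in the minimal primes over the annihilator. -/
theorem scalar_notMem {P : Ideal A} (hP : P ∈ (RingHom.ker D.act).minimalPrimes) {a : A} {l : Λ}
    (ha : D.act a = Matrix.scalar (Fin d) l) (hl : l ≠ 0) : a ∉ P := by
  intro haP
  obtain ⟨y, hy, hay⟩ := Ideal.exists_mul_mem_of_mem_minimalPrimes hP haP
  refine hy (RingHom.mem_ker.mpr (Matrix.ext fun i j => ?_))
  have h : D.act (a * y) i j = 0 := by rw [RingHom.mem_ker.mp hay]; rfl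
  rw [map_mul, ha] at h
  simpa [Matrix.scalar_apply, Matrix.diagonal_mul, hl] using h

/-- For a prime `P` minimal over the annihilator, `Λ → A ⧸ P` is injective and integral, so every
prime of `Λ` lifts to a prime of `A` above `P`. -/
theorem exists_scalarHom {P : Ideal A} (hP : P ∈ (RingHom.ker D.act).minimalPrimes) :
    ∃ f : Λ →+* A ⧸ P, Function.Injective f ∧ f.IsIntegral ∧
      ∀ (a : A) (l : Λ), D.act a = Matrix.scalar (Fin d) l → f l = Ideal.Quotient.mk P a := by
  classical
  choose s hs using D.exists_scalar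
  have hker : ∀ {a b : A}, D.act a = D.act b → Ideal.Quotient.mk P a = Ideal.Quotient.mk P b :=
    fun {a b} h => (Ideal.Quotient.mk_eq_mk_iff_sub_mem _ _).mpr
      (hP.1.2 (RingHom.mem_ker.mpr (by rw [map_sub, h, sub_self])))
  let f : Λ →+* A ⧸ P :=
    { toFun := fun l => Ideal.Quotient.mk P (s l)
      map_one' := by
        rw [← map_one (Ideal.Quotient.mk P)]
        exact hker (by rw [hs, map_one, map_one])
      map_mul' := fun l m => by
        rw [← map_mul]; exact hker (by rw [hs, map_mul, map_mul, hs, hs])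
      map_zero' := by
        rw [← map_zero (Ideal.Quotient.mk P)]
        exact hker (by rw [hs, map_zero, map_zero])
      map_add' := fun l m => by
        rw [← map_add]; exact hker (by rw [hs, map_add, map_add, hs, hs]) }
  refine ⟨f, ?_, ?_, fun a l h => hker (by rw [hs, h])⟩
  · refine (injective_iff_map_eq_zero f).mpr fun l hl => ?_
    by_contra hne
    exact D.scalar_notMem hP (hs l) hne (Ideal.Quotient.eq_zero_iff_mem.mp hl)
  · intro x
    obtain ⟨a, rfl⟩ := Ideal.Quotient.mk_surjective x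
    refine ⟨(D.act a).charpoly, Matrix.charpoly_monic _, ?_⟩
    rw [eval₂_eq_sum_range]
    have hsum : Ideal.Quotient.mk P (∑ i ∈ Finset.range ((D.act a).charpoly.natDegree + 1),
        s ((D.act a).charpoly.coeff i) * a ^ i) = 0 := by
      rw [Ideal.Quotient.eq_zero_iff_mem]
      refine hP.1.2 (RingHom.mem_ker.mpr ?_)
      rw [map_sum, ← Matrix.aeval_self_charpoly (D.act a), aeval_eq_sum_range]
      refine Finset.sum_congr rfl fun i _ => ?_
      rw [map_mul, map_pow, hs, Algebra.smul_def, Matrix.algebraMap_eq_diagonal]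
      rfl
    simpa [f] using hsum

/-- For `d > 0` the annihilator of the patched module has a minimal prime. -/
theorem exists_minimalPrimes_ker (hd : 0 < d) :
    ∃ P, P ∈ (RingHom.ker D.act).minimalPrimes := by
  have hne : RingHom.ker D.act ≠ ⊤ := fun h => by
    have h0 : D.act 1 = 0 := RingHom.mem_ker.mp (h ▸ Submodule.mem_top)
    have h1 : D.act 1 ⟨0, hd⟩ ⟨0, hd⟩ = 0 := by rw [h0]; rfl
    rw [map_one] at h1
    simp at h1
  obtain ⟨m, hm, hle⟩ := Ideal.exists_le_maximal _ hne
  obtain ⟨P, hP, -⟩ := Ideal.exists_minimalPrimes_le hle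
  exact ⟨P, hP⟩

/-- Chains of primes of `Λ` lift above `P`. -/
theorem ringKrullDim_le_quotient {P : Ideal A} (hP : P ∈ (RingHom.ker D.act).minimalPrimes) :
    ringKrullDim Λ ≤ ringKrullDim (A ⧸ P) := by
  classical
  obtain ⟨f, hinj, hint, -⟩ := D.exists_scalarHom hP
  let : Algebra Λ (A ⧸ P) := f.toAlgebra
  have : Algebra.IsIntegral Λ (A ⧸ P) := ⟨hint⟩
  refine iSup_le fun s => ?_
  suffices H : ∀ i : Fin (s.length + 1), ∃ t : LTSeries (PrimeSpectrum (A ⧸ P)),
      t.length = i ∧ t.last.asIdeal.comap (algebraMap Λ (A ⧸ P)) = (s i).asIdeal by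
    obtain ⟨t, ht, -⟩ := H (Fin.last _)
    refine le_iSup_of_le t ?_
    rw [ht]
    rfl
  intro i
  induction i using Fin.induction with
  | zero =>
    obtain ⟨Q, -, hQ, hQc⟩ := Ideal.exists_ideal_over_prime_of_isIntegral (S := A ⧸ P)
      (s 0).asIdeal ⊥ (fun l hl => by
        rw [Ideal.mem_comap, Ideal.mem_bot] at hl
        rw [show l = 0 from hinj (hl.trans (map_zero f).symm)]
        exact zero_mem _)
    exact ⟨RelSeries.singleton _ ⟨Q, hQ⟩, rfl, hQc⟩
  | succ i ih =>
    obtain ⟨t, ht, htc⟩ := ih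
    have hlt : (s i.castSucc).asIdeal < (s i.succ).asIdeal := s.strictMono (Fin.castSucc_lt_succ)
    obtain ⟨Q, hQge, hQ, hQc⟩ := Ideal.exists_ideal_over_prime_of_isIntegral (S := A ⧸ P)
      (s i.succ).asIdeal t.last.asIdeal (htc.le.trans hlt.le)
    have hQlt : t.last < (⟨Q, hQ⟩ : PrimeSpectrum (A ⧸ P)) :=
      lt_of_le_of_ne hQge fun h => by
        have h1 : (s i.castSucc).asIdeal = (s i.succ).asIdeal := by
          rw [← htc, ← hQc, h]
        exact hlt.ne h1
    exact ⟨t.snoc _ hQlt, by simp [ht], by simpa using hQc⟩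

/-- If `dim A ≤ dim Λ` the supported components are components of `A`. -/
theorem mem_minimalPrimes [IsNoetherianRing Λ] [IsLocalRing Λ]
    (hdim : ringKrullDim A ≤ ringKrullDim Λ) {P : Ideal A}
    (hP : P ∈ (RingHom.ker D.act).minimalPrimes) : P ∈ minimalPrimes A := by
  have := hP.1.1
  obtain ⟨P', hP', hle⟩ := Ideal.exists_minimalPrimes_le (bot_le : (⊥ : Ideal A) ≤ P)
  rcases hle.eq_or_lt with rfl | hlt
  · exact hP'
  exfalso
  have h1 := D.ringKrullDim_le_quotient hP
  have h2 : ringKrullDim (A ⧸ P) + 1 ≤ ringKrullDim A := by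
    rw [ringKrullDim_quotient]
    have hne : Nonempty (PrimeSpectrum.zeroLocus (R := A) (P : Set A)) :=
      ⟨⟨⟨P, hP.1.1⟩, fun a ha => ha⟩⟩
    have : Nonempty (PrimeSpectrum A) := ⟨⟨P, hP.1.1⟩⟩
    rw [Order.krullDim_eq_iSup_length, ringKrullDim, Order.krullDim_eq_iSup_length,
      ← WithBot.coe_one, ← WithBot.coe_add, WithBot.coe_le_coe, ENat.iSup_add]
    refine iSup_le fun t => ?_
    refine le_iSup_of_le ((t.map Subtype.val (fun _ _ h => h)).cons ⟨P', hP'.1.1⟩
      (lt_of_lt_of_le (show (⟨P', hP'.1.1⟩ : PrimeSpectrum A) < ⟨P, hP.1.1⟩ from hlt)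
        (t.head.2 : (P : Set A) ⊆ t.head.1.asIdeal))) ?_
    simp only [RelSeries.cons_length, Nat.cast_add, Nat.cast_one]
    exact le_rfl
  have hfin : ringKrullDim Λ ≠ ⊤ := ringKrullDim_ne_top
  have h3 : ringKrullDim Λ + 1 ≤ ringKrullDim Λ :=
    (add_le_add_left h1 1).trans (h2.trans hdim)
  obtain ⟨n, hn⟩ : ∃ n : ℕ, ringKrullDim Λ = (n : ℕ) := by
    have hnonneg : 0 ≤ ringKrullDim Λ := ringKrullDim_nonneg_of_nontrivial
    cases hd : ringKrullDim Λ with
    | bot => rw [hd] at hnonneg; exact absurd hnonneg (by simp)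
    | coe e =>
      cases e with
      | top => exact absurd hd hfin
      | coe n => exact ⟨n, rfl⟩
  rw [hn] at h3
  norm_cast at h3
  omega

end Domain

end Patched

end Fermat.Agent.Patching
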