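import Mathlib

/-!
# Ultrafilter limits in complete Noetherian local rings with finite residue field

`ulim U x` is the adic limit of a sequence `x` along `U`; it commutes with sums and products and
respects ideals.
-/

set_option autoImplicit false

noncomputable section

open IsLocalRing Filter

namespace Fermat.Agent.Patching

variable {R : Type*} [CommRing R] [IsLocalRing R]

theorem finite_quotient_maximalIdeal_pow [IsNoetherianRing R] [Finite (ResidueField R)] (k : ℕ) :
    Finite (R ⧸ maximalIdeal R ^ k) :=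
  haveI : Finite (R ⧸ maximalIdeal R) := ‹Finite (ResidueField R)›
  Ideal.finite_quotient_pow (IsNoetherian.noetherian _) k

variable (U : Ultrafilter ℕ)

/-- `l` is the limit of `x` along `U` in the adic topology. -/
def HasULim (x : ℕ → R) (l : R) : Prop :=
  ∀ k : ℕ, ∀ᶠ n in (U : Filter ℕ), x n - l ∈ maximalIdeal R ^ k

variable {U}

theorem HasULim.unique [IsNoetherianRing R] {x : ℕ → R} {l l' : R} (h : HasULim U x l)
    (h' : HasULim U x l') :
    l = l' := by
  rw [← sub_eq_zero, ← Ideal.mem_bot (R := R),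
    ← Ideal.iInf_pow_eq_bot_of_isLocalRing (maximalIdeal R) (maximalIdeal.isMaximal R).ne_top,
    Ideal.mem_iInf]
  intro k
  obtain ⟨n, hn⟩ := ((h k).and (h' k)).exists
  rw [show l - l' = (x n - l') - (x n - l) by ring]
  exact sub_mem hn.2 hn.1

theorem hasULim_const (c : R) : HasULim U (fun _ => c) c :=
  fun k => Eventually.of_forall fun _ => by simp

theorem HasULim.add {x y : ℕ → R} {a b : R} (hx : HasULim U x a) (hy : HasULim U y b) :
    HasULim U (fun n => x n + y n) (a + b) := fun k => by
  filter_upwards [hx k, hy k] with n h1 h2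
  rw [show x n + y n - (a + b) = (x n - a) + (y n - b) by ring]
  exact add_mem h1 h2

theorem HasULim.mul {x y : ℕ → R} {a b : R} (hx : HasULim U x a) (hy : HasULim U y b) :
    HasULim U (fun n => x n * y n) (a * b) := fun k => by
  filter_upwards [hx k, hy k] with n h1 h2
  rw [show x n * y n - a * b = (x n - a) * y n + a * (y n - b) by ring]
  exact add_mem (Ideal.mul_mem_right _ _ h1) (Ideal.mul_mem_left _ _ h2)

theorem HasULim.sum {ι : Type*} (s : Finset ι) {x : ι → ℕ → R} {a : ι → R}
    (h : ∀ i ∈ s, HasULim U (x i) (a i)) :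
    HasULim U (fun n => ∑ i ∈ s, x i n) (∑ i ∈ s, a i) := by
  classical
  induction s using Finset.induction with
  | empty => simpa using hasULim_const (0 : R)
  | insert i t hi ih =>
    simp only [Finset.forall_mem_insert] at h
    simpa [Finset.sum_insert hi] using h.1.add (ih h.2)

/-- Sequences that differ by eventually small terms have the same limit. -/
theorem HasULim.congr {x y : ℕ → R} {a : R} (hx : HasULim U x a)
    (h : ∀ k : ℕ, ∀ᶠ n in (U : Filter ℕ), y n - x n ∈ maximalIdeal R ^ k) : HasULim U y a :=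
  fun k => by
    filter_upwards [hx k, h k] with n h1 h2
    rw [show y n - a = (y n - x n) + (x n - a) by ring]
    exact add_mem h2 h1

variable [IsNoetherianRing R]

/-- Ideals are closed. -/
theorem mem_of_forall_mem_sup_pow (I : Ideal R) {l : R}
    (h : ∀ k : ℕ, l ∈ I ⊔ maximalIdeal R ^ k) : l ∈ I := by
  rcases eq_or_ne I ⊤ with rfl | hI
  · trivial
  have : Nontrivial (R ⧸ I) := Ideal.Quotient.nontrivial_iff.mpr hI
  have : IsLocalRing (R ⧸ I) :=
    IsLocalRing.of_surjective' (Ideal.Quotient.mk I) Ideal.Quotient.mk_surjective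
  rw [← Ideal.Quotient.eq_zero_iff_mem, ← Ideal.mem_bot (R := R ⧸ I),
    ← Ideal.iInf_pow_eq_bot_of_isLocalRing (maximalIdeal (R ⧸ I))
      (maximalIdeal.isMaximal (R ⧸ I)).ne_top, Ideal.mem_iInf]
  intro k
  have hle : (maximalIdeal R).map (Ideal.Quotient.mk I) ≤ maximalIdeal (R ⧸ I) :=
    le_of_eq_of_le (IsLocalRing.map_maximalIdeal_of_surjective _ Ideal.Quotient.mk_surjective)
      le_rfl
  have hk := Ideal.pow_right_mono hle k
  rw [← Ideal.map_pow] at hk
  refine hk ?_
  obtain ⟨i, hi, j, hj, rfl⟩ := Submodule.mem_sup.mp (h k)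
  rw [map_add, Ideal.Quotient.eq_zero_iff_mem.mpr hi, zero_add]
  exact Ideal.mem_map_of_mem _ hj

theorem HasULim.mem_of_eventually {x : ℕ → R} {a : R} (hx : HasULim U x a) (I : Ideal R)
    (h : ∀ k : ℕ, ∀ᶠ n in (U : Filter ℕ), x n ∈ I ⊔ maximalIdeal R ^ k) : a ∈ I := by
  refine mem_of_forall_mem_sup_pow I fun k => ?_
  obtain ⟨n, h1, h2⟩ := ((hx k).and (h k)).exists
  rw [show a = x n - (x n - a) by ring]
  exact sub_mem h2 (Ideal.mem_sup_right h1)

variable (U) [Finite (ResidueField R)] [IsAdicComplete (maximalIdeal R) R]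

/-- Every sequence has a limit along an ultrafilter. -/
theorem exists_hasULim (x : ℕ → R) : ∃ l, HasULim U x l := by
  classical
  have hstep : ∀ k : ℕ, ∃ c : R ⧸ maximalIdeal R ^ k,
      ∀ᶠ n in (U : Filter ℕ), Ideal.Quotient.mk _ (x n) = c := by
    intro k
    have := finite_quotient_maximalIdeal_pow (R := R) k
    exact Ultrafilter.eventually_exists_iff.mp (Eventually.of_forall fun n => ⟨_, rfl⟩)
  choose c hc using hstep
  choose f hf using fun k => Ideal.Quotient.mk_surjective (c k)
  obtain ⟨l, hl⟩ := IsPrecomplete.prec (I := maximalIdeal R) (M := R)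
    (IsAdicComplete.toIsPrecomplete (I := maximalIdeal R) (M := R)) (f := f) fun {i j} hij => by
      rw [smul_eq_mul, Ideal.mul_top, SModEq.sub_mem]
      obtain ⟨n, hi, hj⟩ := ((hc i).and (hc j)).exists
      rw [← hf, Ideal.Quotient.mk_eq_mk_iff_sub_mem] at hi hj
      rw [show f i - f j = (x n - f j) - (x n - f i) by ring]
      exact sub_mem (Ideal.pow_le_pow_right hij hj) hi
  refine ⟨l, fun k => ?_⟩
  filter_upwards [hc k] with n hn
  rw [← hf, Ideal.Quotient.mk_eq_mk_iff_sub_mem] at hn
  have := hl k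
  rw [smul_eq_mul, Ideal.mul_top, SModEq.sub_mem] at this
  rw [show x n - l = (x n - f k) + (f k - l) by ring]
  exact add_mem hn this

/-- The limit of a sequence along an ultrafilter. -/
def ulim (x : ℕ → R) : R := (exists_hasULim U x).choose

theorem hasULim_ulim (x : ℕ → R) : HasULim U x (ulim U x) := (exists_hasULim U x).choose_spec

theorem ulim_eq {x : ℕ → R} {l : R} (h : HasULim U x l) : ulim U x = l :=
  (hasULim_ulim U x).unique h

end Fermat.Agent.Patching
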