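import Mathlib
import Fermat.Agent.Patching.Limit
import Fermat.Agent.Patching.Patched

/-!
# Patching by an ultrafilter

A `Level` is the data at one auxiliary level: the module is free of rank `d` over `Λ ⧸ c`, the
action of `A` is given by matrices.  A sequence of levels whose ideals `c` tend to `0` gives a
`Patched` module `patch L hc`.
-/

set_option autoImplicit false

noncomputable section

open IsLocalRing Filter

namespace Fermat.Agent.Patching

/-- Patching data at one level. -/
structure Level (Λ A R : Type*) [CommRing Λ] [CommRing A] [CommRing R]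
    (𝔞 : Ideal Λ) (I : Ideal R) (d : ℕ) where
  /-- the ideal cutting out the coefficient ring of this level -/
  c : Ideal Λ
  /-- the action on the module `(Λ ⧸ c) ^ d` -/
  act : A →+* Matrix (Fin d) (Fin d) (Λ ⧸ c)
  /-- the map to the unpatched ring -/
  π : A →+* R
  π_surjective : Function.Surjective π
  exists_scalar : ∀ l : Λ, ∃ a : A,
    act a = Matrix.scalar (Fin d) (Ideal.Quotient.mk c l) ∧ (l ∈ 𝔞 → π a = 0)
  entry_mem : ∀ a : A, π a ∈ I → ∀ i j, act a i j ∈ 𝔞.map (Ideal.Quotient.mk c)

/-- Nakayama: a homomorphism to a finite ring kills a power of the maximal ideal bounded only in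
terms of the size of the ring. -/
theorem pow_maximalIdeal_le_ker {A S : Type*} [CommRing A] [IsLocalRing A] [IsNoetherianRing A]
    [Ring S] [Finite S] (φ : A →+* S) :
    maximalIdeal A ^ Nat.card (Set S) ≤ RingHom.ker φ := by
  set K := Nat.card (Set S) with hK
  let s : Fin (K + 1) → Set S := fun i => φ '' ((maximalIdeal A ^ (i : ℕ) : Ideal A) : Set A)
  obtain ⟨i, j, hij, heq⟩ : ∃ i j : Fin (K + 1), i < j ∧ s i = s j := by
    have hninj : ¬ Function.Injective s := fun h => by
      have := Nat.card_le_card_of_injective s h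
      simp [← hK] at this
    obtain ⟨i, j, heq, hne⟩ := Function.not_injective_iff.mp hninj
    rcases lt_or_gt_of_ne hne with h | h
    · exact ⟨i, j, h, heq⟩
    · exact ⟨j, i, h, heq.symm⟩
  have hle : maximalIdeal A ^ (i : ℕ) ≤
      RingHom.ker φ ⊔ maximalIdeal A • (maximalIdeal A ^ (i : ℕ)) := fun x hx => by
    obtain ⟨y, hy, hxy⟩ : φ x ∈ s j := heq ▸ ⟨x, hx, rfl⟩
    rw [show x = (x - y) + y by ring]
    refine add_mem (Ideal.mem_sup_left (RingHom.mem_ker.mpr (by rw [map_sub, hxy, sub_self])))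
      (Ideal.mem_sup_right ?_)
    rw [smul_eq_mul, ← pow_succ']
    exact Ideal.pow_le_pow_right (Nat.succ_le_of_lt hij) hy
  refine (Ideal.pow_le_pow_right (Nat.le_of_lt_succ i.isLt)).trans ?_
  exact Submodule.le_of_le_smul_of_le_jacobson_bot (IsNoetherian.noetherian _)
    (maximalIdeal_le_jacobson _) hle

variable {Λ A R : Type*} [CommRing Λ] [CommRing A] [CommRing R]
  {𝔞 : Ideal Λ} {I : Ideal R} {d : ℕ}

namespace Level

variable (L : Level Λ A R 𝔞 I d)

/-- A lift of the matrix of `a`. -/
def mat (a : A) (i j : Fin d) : Λ := Function.surjInv Ideal.Quotient.mk_surjective (L.act a i j)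

theorem mk_mat (a : A) (i j : Fin d) : Ideal.Quotient.mk L.c (L.mat a i j) = L.act a i j :=
  Function.surjInv_eq Ideal.Quotient.mk_surjective _

theorem mat_sub_mem {a : A} {i j : Fin d} {l : Λ} (h : L.act a i j = Ideal.Quotient.mk L.c l) :
    L.mat a i j - l ∈ L.c := by
  rw [← Ideal.Quotient.mk_eq_mk_iff_sub_mem, L.mk_mat, h]

theorem mat_sub_scalar_mem {a : A} {l : Λ}
    (h : L.act a = Matrix.scalar (Fin d) (Ideal.Quotient.mk L.c l)) (i j : Fin d) :
    L.mat a i j - Matrix.scalar (Fin d) l i j ∈ L.c := by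
  refine L.mat_sub_mem ?_
  rw [h, Matrix.scalar_apply, Matrix.scalar_apply, Matrix.diagonal_apply, Matrix.diagonal_apply]
  split_ifs <;> simp

theorem mat_add_sub_mem (a b : A) (i j : Fin d) :
    L.mat (a + b) i j - (L.mat a i j + L.mat b i j) ∈ L.c :=
  L.mat_sub_mem (by rw [map_add, Matrix.add_apply, map_add, L.mk_mat, L.mk_mat])

/-- Equicontinuity of the action. -/
theorem exists_pow_mat_mem (Λ A : Type*) [CommRing Λ] [CommRing A] [IsLocalRing Λ]
    [IsNoetherianRing Λ] [Finite (ResidueField Λ)] [IsLocalRing A] [IsNoetherianRing A]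
    (d k : ℕ) : ∃ K : ℕ, ∀ {R : Type _} [CommRing R] {𝔞 : Ideal Λ} {I : Ideal R}
      (L : Level Λ A R 𝔞 I d), L.c ≤ maximalIdeal Λ ^ k →
      ∀ a ∈ maximalIdeal A ^ K, ∀ i j, L.mat a i j ∈ maximalIdeal Λ ^ k := by
  have := finite_quotient_maximalIdeal_pow (R := Λ) k
  refine ⟨Nat.card (Set (Matrix (Fin d) (Fin d) (Λ ⧸ maximalIdeal Λ ^ k))),
    fun {R} _ {𝔞 I} L hc a ha i j => ?_⟩
  have h := pow_maximalIdeal_le_ker ((Ideal.Quotient.factor hc).mapMatrix.comp L.act) ha
  have h' : ((Ideal.Quotient.factor hc).mapMatrix (L.act a)) i j = 0 := by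
    rw [← RingHom.comp_apply, RingHom.mem_ker.mp h]; rfl
  rw [RingHom.mapMatrix_apply, Matrix.map_apply, ← L.mk_mat, Ideal.Quotient.factor_mk] at h'
  exact Ideal.Quotient.eq_zero_iff_mem.mp h'

end Level

section Patch

variable (L : ℕ → Level Λ A R 𝔞 I d)

/-- The ultrafilter used for patching. -/
def U₀ : Ultrafilter ℕ := hyperfilter ℕ

theorem U₀_le_atTop : (U₀ : Filter ℕ) ≤ atTop := Nat.hyperfilter_le_atTop

theorem hasULim_of_sub_mem [IsLocalRing Λ] (hc : ∀ k, ∀ᶠ n in atTop, (L n).c ≤ maximalIdeal Λ ^ k)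
    {x y : ℕ → Λ} {l : Λ} (hx : HasULim U₀ x l) (h : ∀ n, y n - x n ∈ (L n).c) :
    HasULim U₀ y l :=
  hx.congr fun k => by
    filter_upwards [U₀_le_atTop (hc k)] with n hn
    exact hn (h n)

theorem π_mem_pow [IsLocalRing A] [IsLocalRing R] (n k : ℕ) {a : A} (ha : a ∈ maximalIdeal A ^ k) :
    (L n).π a ∈ maximalIdeal R ^ k := by
  rw [← IsLocalRing.map_maximalIdeal_of_surjective _ (L n).π_surjective, ← Ideal.map_pow]
  exact Ideal.mem_map_of_mem _ ha

section Map

variable [IsLocalRing R] [IsNoetherianRing R] [Finite (ResidueField R)]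
  [IsAdicComplete (maximalIdeal R) R]

/-- The limit of the maps to the unpatched ring. -/
def patchMap : A →+* R where
  toFun a := ulim U₀ fun n => (L n).π a
  map_one' := ulim_eq _ (by simpa using hasULim_const (1 : R))
  map_zero' := ulim_eq _ (by simpa using hasULim_const (0 : R))
  map_add' a b := ulim_eq _ (by
    simpa using (hasULim_ulim U₀ fun n => (L n).π a).add (hasULim_ulim U₀ fun n => (L n).π b))
  map_mul' a b := ulim_eq _ (by
    simpa using (hasULim_ulim U₀ fun n => (L n).π a).mul (hasULim_ulim U₀ fun n => (L n).π b))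

/-- If the preimages converge, so do the images. -/
theorem patchMap_eq [IsLocalRing A] {x : ℕ → A} {a : A} (hx : HasULim U₀ x a) {r : R}
    (h : ∀ n, (L n).π (x n) = r) : patchMap L a = r := by
  refine ulim_eq _ fun k => ?_
  filter_upwards [hx k] with n hn
  rw [← h n, ← map_sub, ← neg_sub, map_neg, neg_mem_iff]
  exact π_mem_pow L n k hn

theorem patchMap_surjective [IsLocalRing A] [IsNoetherianRing A] [Finite (ResidueField A)]
    [IsAdicComplete (maximalIdeal A) A] : Function.Surjective (patchMap L) := fun r => by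
  choose x hx using fun n => (L n).π_surjective r
  exact ⟨ulim U₀ x, patchMap_eq L (hasULim_ulim U₀ x) hx⟩

end Map

section Act

variable [IsLocalRing Λ] [IsNoetherianRing Λ] [Finite (ResidueField Λ)]
  (hc : ∀ k, ∀ᶠ n in atTop, (L n).c ≤ maximalIdeal Λ ^ k)

include hc in
theorem eventually_mat_sub_mem [IsLocalRing A] [IsNoetherianRing A] {x : ℕ → A} {a : A}
    (hx : HasULim U₀ x a) (k : ℕ) :
    ∀ᶠ n in (U₀ : Filter ℕ), ∀ i j,
      (L n).mat (x n) i j - (L n).mat a i j ∈ maximalIdeal Λ ^ k := by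
  obtain ⟨K, hK⟩ := Level.exists_pow_mat_mem Λ A d k
  filter_upwards [U₀_le_atTop (hc k), hx K] with n hn hxn i j
  have h1 := hK (L n) hn _ hxn i j
  have h2 := hn ((L n).mat_add_sub_mem (x n - a) a i j)
  rw [sub_add_cancel] at h2
  have := add_mem h2 h1
  convert this using 1
  ring

variable [IsAdicComplete (maximalIdeal Λ) Λ]

/-- The limit of the actions. -/
def patchAct : A →+* Matrix (Fin d) (Fin d) Λ where
  toFun a := Matrix.of fun i j => ulim U₀ fun n => (L n).mat a i j
  map_one' := Matrix.ext fun i j => by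
    refine ulim_eq _ (hasULim_of_sub_mem L hc (hasULim_const _) fun n => ?_)
    refine (L n).mat_sub_mem ?_
    rw [map_one, Matrix.one_apply, Matrix.one_apply]
    split_ifs <;> simp
  map_zero' := Matrix.ext fun i j => by
    refine ulim_eq _ (hasULim_of_sub_mem L hc (hasULim_const _) fun n => ?_)
    refine (L n).mat_sub_mem ?_
    rw [map_zero]
    simp
  map_add' a b := Matrix.ext fun i j =>
    ulim_eq _ (hasULim_of_sub_mem L hc ((hasULim_ulim U₀ fun n => (L n).mat a i j).add
      (hasULim_ulim U₀ fun n => (L n).mat b i j)) fun n => (L n).mat_add_sub_mem a b i j)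
  map_mul' a b := Matrix.ext fun i j => by
    refine ulim_eq _ ?_
    rw [Matrix.mul_apply]
    refine hasULim_of_sub_mem L hc (HasULim.sum Finset.univ fun r _ =>
      (hasULim_ulim U₀ fun n => (L n).mat a i r).mul
        (hasULim_ulim U₀ fun n => (L n).mat b r j)) fun n => ?_
    refine (L n).mat_sub_mem ?_
    simp only [map_mul, Matrix.mul_apply, map_sum, Level.mk_mat]

theorem hasULim_patchAct (a : A) (i j : Fin d) :
    HasULim U₀ (fun n => (L n).mat a i j) (patchAct L hc a i j) :=
  hasULim_ulim U₀ fun n => (L n).mat a i j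

/-- If eventually converging elements act by scalars, so does the limit. -/
theorem patchAct_eq_scalar [IsLocalRing A] [IsNoetherianRing A] {x : ℕ → A} {a : A}
    (hx : HasULim U₀ x a) {l : Λ}
    (h : ∀ n, (L n).act (x n) = Matrix.scalar (Fin d) (Ideal.Quotient.mk (L n).c l)) :
    patchAct L hc a = Matrix.scalar (Fin d) l := Matrix.ext fun i j => by
  refine (hasULim_patchAct L hc a i j).unique ?_
  refine (hasULim_of_sub_mem L hc (hasULim_const _)
    fun n => (L n).mat_sub_scalar_mem (h n) i j).congr fun k => ?_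
  filter_upwards [eventually_mat_sub_mem L hc hx k] with n hn
  exact (neg_sub ((L n).mat (x n) i j) ((L n).mat a i j)) ▸ neg_mem (hn i j)

end Act

variable [IsLocalRing Λ] [IsNoetherianRing Λ] [Finite (ResidueField Λ)]
  [IsAdicComplete (maximalIdeal Λ) Λ]
  [IsLocalRing A] [IsNoetherianRing A] [Finite (ResidueField A)]
  [IsAdicComplete (maximalIdeal A) A]
  [IsLocalRing R] [IsNoetherianRing R] [Finite (ResidueField R)]
  [IsAdicComplete (maximalIdeal R) R]
  (hc : ∀ k, ∀ᶠ n in atTop, (L n).c ≤ maximalIdeal Λ ^ k)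

/-- **Patching.** -/
def patch : Patched Λ A R 𝔞 I d where
  act := patchAct L hc
  ψ := patchMap L
  ψ_surjective := patchMap_surjective L
  exists_scalar l := by
    choose x hx hx0 using fun n => (L n).exists_scalar l
    exact ⟨_, patchAct_eq_scalar L hc (hasULim_ulim U₀ x) hx⟩
  exists_scalar_of_mem l hl := by
    choose x hx hx0 using fun n => (L n).exists_scalar l
    exact ⟨_, patchAct_eq_scalar L hc (hasULim_ulim U₀ x) hx,
      patchMap_eq L (hasULim_ulim U₀ x) fun n => hx0 n hl⟩
  entry_mem a ha i j := by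
    refine (hasULim_patchAct L hc a i j).mem_of_eventually 𝔞 fun k => ?_
    obtain ⟨K, hK⟩ := Level.exists_pow_mat_mem Λ A d k
    filter_upwards [U₀_le_atTop (hc k), hasULim_ulim U₀ (fun n => (L n).π a) K] with n hn hπ
    rw [← IsLocalRing.map_maximalIdeal_of_surjective _ (L n).π_surjective, ← Ideal.map_pow,
      Ideal.mem_map_iff_of_surjective _ (L n).π_surjective] at hπ
    obtain ⟨e, he, hπe⟩ := hπ
    have hI : (L n).π (a - e) ∈ I := by
      rw [map_sub, hπe, sub_sub_cancel]
      exact ha
    have h1 := (L n).entry_mem _ hI i j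
    rw [← (L n).mk_mat, ← Ideal.mem_comap, Ideal.comap_map_of_surjective _
      Ideal.Quotient.mk_surjective, ← RingHom.ker_eq_comap_bot, Ideal.mk_ker] at h1
    have h1' := sup_le_sup_left hn 𝔞 h1
    have h2 := Ideal.mem_sup_right (S := 𝔞) (hn ((L n).mat_add_sub_mem (a - e) e i j))
    rw [sub_add_cancel] at h2
    have h3 := Ideal.mem_sup_right (S := 𝔞) (hK (L n) hn e he i j)
    have := add_mem (add_mem h2 h1') h3
    convert this using 1
    ring

/-- An element acting by the scalar `l` at every level acts by `l` on the patched module. -/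
theorem patch_act_eq_scalar {a : A} {l : Λ}
    (h : ∀ n, (L n).act a = Matrix.scalar (Fin d) (Ideal.Quotient.mk (L n).c l)) :
    (patch L hc).act a = Matrix.scalar (Fin d) l :=
  patchAct_eq_scalar L hc (hasULim_const a) h

section Pair

variable {A' R' B : Type*} [CommRing A'] [IsLocalRing A'] [IsNoetherianRing A']
  [Finite (ResidueField A')] [IsAdicComplete (maximalIdeal A') A'] [CommRing R'] [IsLocalRing R']
  [IsNoetherianRing R'] [Finite (ResidueField R')] [IsAdicComplete (maximalIdeal R') R']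
  [CommRing B] {I' : Ideal R'} (L' : ℕ → Level Λ A' R' 𝔞 I' d)
  (hc' : ∀ k, ∀ᶠ n in atTop, (L' n).c ≤ maximalIdeal Λ ^ k)

/-- Levelwise congruences modulo `J` give congruent patched modules. -/
theorem patch_congr {f : A →+* B} {f' : A' →+* B} {J : Ideal Λ}
    (h : ∀ n, ∀ (a : A) (a' : A'), f a = f' a' → ∀ i j,
      (L n).mat a i j - (L' n).mat a' i j ∈ J ⊔ (L n).c ⊔ (L' n).c)
    (a : A) (a' : A') (haa : f a = f' a') (i j : Fin d) :
    (patch L hc).act a i j - (patch L' hc').act a' i j ∈ J := by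
  refine mem_of_forall_mem_sup_pow J fun k => ?_
  have e : ∀ᶠ n in (U₀ : Filter ℕ), (patch L hc).act a i j - (patch L' hc').act a' i j ∈
      J ⊔ maximalIdeal Λ ^ k := by
    filter_upwards [hasULim_patchAct L hc a i j k, hasULim_patchAct L' hc' a' i j k,
      U₀_le_atTop (hc k), U₀_le_atTop (hc' k)] with n h1 h2 h3 h3'
    have h5 : (L n).mat a i j - (L' n).mat a' i j ∈ J ⊔ maximalIdeal Λ ^ k :=
      (sup_le (sup_le le_sup_left (le_sup_of_le_right h3)) (le_sup_of_le_right h3'))
        (h n a a' haa i j)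
    have := add_mem (sub_mem h5 (Ideal.mem_sup_right (S := J) h1))
      (Ideal.mem_sup_right (S := J) h2)
    convert this using 1
    change patchAct L hc a i j - patchAct L' hc' a' i j = _
    ring
  exact e.exists.choose_spec

end Pair

end Patch

end Fermat.Agent.Patching
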