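import Mathlib
import Fermat.Agent.Patching.Construct

/-!
# Levels from modules

A module `N` with `IsLevelBasis c b` is free over `Λ ⧸ c` with basis `b`; an action of `A` by
`Λ`-linear endomorphisms then gives a `Level`.
-/

set_option autoImplicit false

noncomputable section

open IsLocalRing

namespace Fermat.Agent.Patching

variable {Λ A R : Type*} [CommRing Λ] [CommRing A] [CommRing R]
  {𝔞 : Ideal Λ} {I : Ideal R} {d : ℕ}
  {N : Type*} [AddCommGroup N] [Module Λ N] {c : Ideal Λ} {b : Fin d → N}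

/-- `b` is a basis of `N` as a module over `Λ ⧸ c`. -/
structure IsLevelBasis (c : Ideal Λ) (b : Fin d → N) : Prop where
  span_eq : Submodule.span Λ (Set.range b) = ⊤
  rel : ∀ x : Fin d → Λ, ∑ i, x i • b i = 0 ↔ ∀ i, x i ∈ c

namespace IsLevelBasis

variable (h : IsLevelBasis c b)

include h in
theorem exists_coord (x : N) : ∃ y : Fin d → Λ, ∑ i, y i • b i = x :=
  (Submodule.mem_span_range_iff_exists_fun Λ).mp (h.span_eq ▸ Submodule.mem_top)

include h in
theorem exists_coord_mem (J : Ideal Λ) {x : N} (hx : x ∈ J • (⊤ : Submodule Λ N)) :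
    ∃ y : Fin d → Λ, (∀ i, y i ∈ J) ∧ ∑ i, y i • b i = x := by
  rw [← h.span_eq, Submodule.mem_ideal_smul_span_iff_exists_sum] at hx
  obtain ⟨a, ha, rfl⟩ := hx
  exact ⟨a, ha, (a.sum_fintype (fun i c => c • b i) fun i => zero_smul Λ (b i)).symm⟩

include h in
theorem mk_eq {x y : Fin d → Λ} (he : ∑ i, x i • b i = ∑ i, y i • b i) (i : Fin d) :
    Ideal.Quotient.mk c (x i) = Ideal.Quotient.mk c (y i) := by
  rw [Ideal.Quotient.mk_eq_mk_iff_sub_mem]
  refine (h.rel (x - y)).mp ?_ i
  simp only [Pi.sub_apply, sub_smul, Finset.sum_sub_distrib, he, sub_self]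

/-- The matrix of an endomorphism. -/
def endMatrix (T : Module.End Λ N) : Matrix (Fin d) (Fin d) (Λ ⧸ c) :=
  Matrix.of fun i j => Ideal.Quotient.mk c ((h.exists_coord (T (b j))).choose i)

theorem endMatrix_eq {T : Module.End Λ N} {M : Matrix (Fin d) (Fin d) Λ}
    (hM : ∀ j, ∑ i, M i j • b i = T (b j)) : h.endMatrix T = M.map (Ideal.Quotient.mk c) :=
  Matrix.ext fun i j =>
    h.mk_eq ((h.exists_coord (T (b j))).choose_spec.trans (hM j).symm) i

include h in
theorem exists_matrix (T : Module.End Λ N) :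
    ∃ M : Matrix (Fin d) (Fin d) Λ, ∀ j, ∑ i, M i j • b i = T (b j) :=
  ⟨Matrix.of fun i j => (h.exists_coord (T (b j))).choose i,
    fun j => (h.exists_coord (T (b j))).choose_spec⟩

/-- The matrix of an endomorphism, as a ring homomorphism. -/
def endMatrixHom : Module.End Λ N →+* Matrix (Fin d) (Fin d) (Λ ⧸ c) where
  toFun := h.endMatrix
  map_one' := by
    refine (h.endMatrix_eq (M := 1) fun j => ?_).trans (Matrix.map_one _ (map_zero _) (map_one _))
    simp [Matrix.one_apply, ite_smul]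
  map_zero' := by
    refine (h.endMatrix_eq (M := 0) fun j => ?_).trans (Matrix.map_zero _ (map_zero _))
    simp
  map_add' S T := by
    obtain ⟨M, hM⟩ := h.exists_matrix S
    obtain ⟨M', hM'⟩ := h.exists_matrix T
    rw [h.endMatrix_eq hM, h.endMatrix_eq hM', h.endMatrix_eq (M := M + M') (fun j => by
      simp [Matrix.add_apply, add_smul, Finset.sum_add_distrib, hM, hM'])]
    exact Matrix.map_add _ (map_add _) _ _
  map_mul' S T := by
    obtain ⟨M, hM⟩ := h.exists_matrix S
    obtain ⟨M', hM'⟩ := h.exists_matrix T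
    rw [h.endMatrix_eq hM, h.endMatrix_eq hM', h.endMatrix_eq (M := M * M') (fun j => by
      rw [Module.End.mul_apply, ← hM' j, map_sum]
      simp_rw [map_smul, ← hM, Matrix.mul_apply, Finset.sum_smul, Finset.smul_sum, smul_smul]
      rw [Finset.sum_comm]
      simp_rw [mul_comm])]
    exact Matrix.map_mul

theorem endMatrixHom_eq {T : Module.End Λ N} {M : Matrix (Fin d) (Fin d) Λ}
    (hM : ∀ j, ∑ i, M i j • b i = T (b j)) : h.endMatrixHom T = M.map (Ideal.Quotient.mk c) :=
  h.endMatrix_eq hM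

theorem endMatrixHom_smul_id (l : Λ) :
    h.endMatrixHom (l • LinearMap.id) = Matrix.scalar (Fin d) (Ideal.Quotient.mk c l) := by
  rw [h.endMatrixHom_eq (M := Matrix.scalar (Fin d) l) fun j => by
    simp [Matrix.scalar_apply, Matrix.diagonal_apply, ite_smul]]
  simp [Matrix.scalar_apply, Matrix.diagonal_map]

end IsLevelBasis

namespace Level

/-- A level from a module free over `Λ ⧸ c`. -/
def ofModule (h : IsLevelBasis c b) (act : A →+* Module.End Λ N) (π : A →+* R)
    (hπ : Function.Surjective π)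
    (hscalar : ∀ l : Λ, ∃ a : A, act a = l • LinearMap.id ∧ (l ∈ 𝔞 → π a = 0))
    (hann : ∀ a : A, π a ∈ I → ∀ x : N, act a x ∈ 𝔞 • (⊤ : Submodule Λ N)) :
    Level Λ A R 𝔞 I d where
  c := c
  act := h.endMatrixHom.comp act
  π := π
  π_surjective := hπ
  exists_scalar l := by
    obtain ⟨a, ha, ha0⟩ := hscalar l
    exact ⟨a, by rw [RingHom.comp_apply, ha, h.endMatrixHom_smul_id], ha0⟩
  entry_mem a ha i j := by
    choose y hy hys using fun j => h.exists_coord_mem 𝔞 (hann a ha (b j))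
    rw [RingHom.comp_apply, h.endMatrixHom_eq (M := Matrix.of fun i j => y j i) hys]
    exact Ideal.mem_map_of_mem _ (hy j i)

/-- Levels built from modules that are congruent modulo `J` have congruent matrices. -/
theorem ofModule_congr {A' R' : Type*} [CommRing A'] [CommRing R'] {I' : Ideal R'}
    {N' : Type*} [AddCommGroup N'] [Module Λ N'] {c' : Ideal Λ} {b' : Fin d → N'}
    {h : IsLevelBasis c b} {act : A →+* Module.End Λ N} {π : A →+* R}
    {hπ : Function.Surjective π}
    {hs : ∀ l : Λ, ∃ a : A, act a = l • LinearMap.id ∧ (l ∈ 𝔞 → π a = 0)}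
    {ha : ∀ a : A, π a ∈ I → ∀ x : N, act a x ∈ 𝔞 • (⊤ : Submodule Λ N)}
    {h' : IsLevelBasis c' b'} {act' : A' →+* Module.End Λ N'} {π' : A' →+* R'}
    {hπ' : Function.Surjective π'}
    {hs' : ∀ l : Λ, ∃ a : A', act' a = l • LinearMap.id ∧ (l ∈ 𝔞 → π' a = 0)}
    {ha' : ∀ a : A', π' a ∈ I' → ∀ x : N', act' a x ∈ 𝔞 • (⊤ : Submodule Λ N')}
    {J : Ideal Λ} (g : N →ₗ[Λ] N' ⧸ J • (⊤ : Submodule Λ N'))
    (hb : ∀ i, g (b i) = Submodule.Quotient.mk (b' i)) {a : A} {a' : A'}
    (hcomm : ∀ j, g (act a (b j)) = Submodule.Quotient.mk (act' a' (b' j))) (i j : Fin d) :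
    (ofModule h act π hπ hs ha).mat a i j - (ofModule h' act' π' hπ' hs' ha').mat a' i j ∈
      J ⊔ (ofModule h act π hπ hs ha).c ⊔ (ofModule h' act' π' hπ' hs' ha').c := by
  obtain ⟨M, hM⟩ := h.exists_matrix (act a)
  obtain ⟨M', hM'⟩ := h'.exists_matrix (act' a')
  have e₁ : (ofModule h act π hπ hs ha).mat a i j - M i j ∈ c :=
    (ofModule h act π hπ hs ha).mat_sub_mem
      (show h.endMatrixHom (act a) i j = _ by rw [h.endMatrixHom_eq hM]; rfl)
  have e₂ : (ofModule h' act' π' hπ' hs' ha').mat a' i j - M' i j ∈ c' :=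
    (ofModule h' act' π' hπ' hs' ha').mat_sub_mem
      (show h'.endMatrixHom (act' a') i j = _ by rw [h'.endMatrixHom_eq hM']; rfl)
  have hmem : ∑ r, (M r j - M' r j) • b' r ∈ J • (⊤ : Submodule Λ N') := by
    simp only [sub_smul, Finset.sum_sub_distrib]
    rw [← Submodule.Quotient.eq, hM' j, ← hcomm j, ← hM j, map_sum]
    simp_rw [map_smul, hb, ← Submodule.Quotient.mk_smul]
    exact map_sum (Submodule.mkQ _) _ _
  obtain ⟨y, hy, hys⟩ := h'.exists_coord_mem J hmem
  have e₃ : M i j - M' i j - y i ∈ c' :=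
    (Ideal.Quotient.mk_eq_mk_iff_sub_mem _ _).mp (h'.mk_eq hys.symm i)
  have := sub_mem (add_mem (Ideal.mem_sup_left (Ideal.mem_sup_right (S := J) e₁))
    (add_mem (Ideal.mem_sup_right (S := J ⊔ c) e₃)
      (Ideal.mem_sup_left (Ideal.mem_sup_left (hy i)))))
    (Ideal.mem_sup_right (S := J ⊔ c) e₂)
  rw [show (ofModule h act π hπ hs ha).mat a i j - (ofModule h' act' π' hπ' hs' ha').mat a' i j =
      ((ofModule h act π hπ hs ha).mat a i j - M i j) + ((M i j - M' i j - y i) + y i) -
        ((ofModule h' act' π' hπ' hs' ha').mat a' i j - M' i j) by ring]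
  exact this

end Level

end Fermat.Agent.Patching
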