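import Mathlib
import Fermat.Agent.CommAlg.PowerSeriesRegular

/-!
# The coefficient ring `O[[x₁, …, xₙ]]` of patching

It is a complete local domain with finite residue field, of dimension `n + 1` for a discrete
valuation ring `O`.
-/

set_option autoImplicit false

noncomputable section

open IsLocalRing

namespace Fermat.Agent.Patching

instance isDomain_mvPowerSeries {σ O : Type*} [CommRing O] [IsDomain O] :
    IsDomain (MvPowerSeries σ O) :=
  NoZeroDivisors.to_isDomain _

/-- Power series over a ring with finite residue field have finite residue field. -/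
theorem finite_residueField_mvPowerSeries {σ O : Type*} [CommRing O] [IsLocalRing O]
    [Finite (ResidueField O)] : Finite (ResidueField (MvPowerSeries σ O)) := by
  have : IsLocalHom (MvPowerSeries.C : O →+* MvPowerSeries σ O) :=
    ⟨fun a ha => by simpa using MvPowerSeries.isUnit_iff_constantCoeff.mp ha⟩
  refine Finite.of_surjective (ResidueField.map (MvPowerSeries.C : O →+* MvPowerSeries σ O))
    fun y => ?_
  obtain ⟨f, rfl⟩ := residue_surjective y
  refine ⟨residue O (MvPowerSeries.constantCoeff f), ?_⟩
  rw [ResidueField.map_residue, ← sub_eq_zero, ← map_sub, residue_eq_zero_iff]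
  simp [mem_maximalIdeal, MvPowerSeries.isUnit_iff_constantCoeff]

instance {σ O : Type*} [CommRing O] [IsLocalRing O] [Finite (ResidueField O)] :
    Finite (ResidueField (MvPowerSeries σ O)) :=
  finite_residueField_mvPowerSeries

section OneVariable

variable {S : Type*} [CommRing S] [IsLocalRing S]

theorem coeff_mem_of_mem_maximalIdeal_pow {k : ℕ} {f : PowerSeries S}
    (hf : f ∈ maximalIdeal (PowerSeries S) ^ k) (i : ℕ) :
    PowerSeries.coeff i f ∈ maximalIdeal S ^ (k - i) := by
  induction k generalizing f i with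
  | zero => simp
  | succ k ih =>
    rw [pow_succ] at hf
    induction hf using Submodule.mul_induction_on' with
    | mem_mul_mem x hx y hy =>
      rw [PowerSeries.coeff_mul]
      refine Ideal.sum_mem _ fun p hp => ?_
      have hp' := Finset.HasAntidiagonal.mem_antidiagonal.mp hp
      rcases Nat.eq_zero_or_pos p.2 with h0 | hpos
      · have hy0 : PowerSeries.coeff p.2 y ∈ maximalIdeal S := by
          rw [h0, PowerSeries.coeff_zero_eq_constantCoeff]
          simpa [mem_maximalIdeal, PowerSeries.isUnit_iff_constantCoeff] using hy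
        exact Ideal.pow_le_pow_right (show k + 1 - i ≤ k - p.1 + 1 by omega)
          (pow_succ (maximalIdeal S) _ ▸ Ideal.mul_mem_mul (ih hx p.1) hy0)
      · exact Ideal.pow_le_pow_right (show k + 1 - i ≤ k - p.1 by omega)
          (Ideal.mul_mem_right _ _ (ih hx p.1))
    | add x _ y _ hx hy => rw [map_add]; exact add_mem hx hy

theorem mem_maximalIdeal_pow_of_coeff_mem {k : ℕ} {f : PowerSeries S}
    (hf : ∀ i < k, PowerSeries.coeff i f ∈ maximalIdeal S ^ (k - i)) :
    f ∈ maximalIdeal (PowerSeries S) ^ k := by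
  classical
  have : IsLocalHom (PowerSeries.C : S →+* PowerSeries S) :=
    ⟨fun a ha => by simpa using PowerSeries.isUnit_iff_constantCoeff.mp ha⟩
  have hX : (PowerSeries.X : PowerSeries S) ∈ maximalIdeal (PowerSeries S) := by
    simp [mem_maximalIdeal, PowerSeries.isUnit_iff_constantCoeff]
  have hC : (maximalIdeal S).map (PowerSeries.C (R := S)) ≤ maximalIdeal (PowerSeries S) :=
    Ideal.map_le_iff_le_comap.mpr fun a ha => map_nonunit (PowerSeries.C (R := S)) a ha
  set t := ∑ i ∈ Finset.range k, PowerSeries.C (PowerSeries.coeff i f) * PowerSeries.X ^ i with ht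
  have h2 : PowerSeries.X ^ k ∣ f - t := by
    rw [PowerSeries.X_pow_dvd_iff]
    intro m hm
    rw [map_sub, sub_eq_zero, ht, map_sum, Finset.sum_eq_single m]
    · simp
    · intro b _ hb
      simp [Ne.symm hb]
    · simp [hm]
  obtain ⟨g, hg⟩ := h2
  rw [← sub_add_cancel f t, hg]
  refine add_mem (Ideal.mul_mem_right _ _ (Ideal.pow_mem_pow hX k)) (Ideal.sum_mem _ fun i hi => ?_)
  have hik := Finset.mem_range.mp hi
  have h3 : PowerSeries.C (PowerSeries.coeff i f) ∈ maximalIdeal (PowerSeries S) ^ (k - i) :=
    Ideal.pow_right_mono hC _ (Ideal.map_pow (PowerSeries.C (R := S)) (maximalIdeal S) (k - i) ▸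
      Ideal.mem_map_of_mem _ (hf i hik))
  have h4 := Ideal.mul_mem_mul h3 (Ideal.pow_mem_pow hX i)
  rwa [← pow_add, Nat.sub_add_cancel hik.le] at h4

/-- Power series over a complete local ring form a complete local ring. -/
theorem isAdicComplete_powerSeries [IsAdicComplete (maximalIdeal S) S] :
    IsAdicComplete (maximalIdeal (PowerSeries S)) (PowerSeries S) where
  haus' f hf := by
    refine PowerSeries.ext fun i => ?_
    rw [map_zero]
    refine IsHausdorff.haus (IsAdicComplete.toIsHausdorff (I := maximalIdeal S) (M := S)) _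
      fun j => ?_
    have h := hf (j + i)
    rw [smul_eq_mul, Ideal.mul_top, SModEq.sub_mem, sub_zero] at h ⊢
    simpa using coeff_mem_of_mem_maximalIdeal_pow h i
  prec' f hf := by
    have hcauchy : ∀ i {m n : ℕ}, m ≤ n →
        PowerSeries.coeff i (f (m + i)) ≡ PowerSeries.coeff i (f (n + i))
          [SMOD (maximalIdeal S ^ m • ⊤ : Submodule S S)] := by
      intro i m n hmn
      have h := hf (Nat.add_le_add_right hmn i)
      rw [smul_eq_mul, Ideal.mul_top, SModEq.sub_mem] at h ⊢
      simpa using coeff_mem_of_mem_maximalIdeal_pow h i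
    choose L hL using fun i => IsPrecomplete.prec
      (IsAdicComplete.toIsPrecomplete (I := maximalIdeal S) (M := S)) (hcauchy i)
    refine ⟨PowerSeries.mk L, fun k => ?_⟩
    rw [smul_eq_mul, Ideal.mul_top, SModEq.sub_mem]
    refine mem_maximalIdeal_pow_of_coeff_mem fun i hi => ?_
    have h := hL i (k - i)
    rw [smul_eq_mul, Ideal.mul_top, SModEq.sub_mem, Nat.sub_add_cancel hi.le] at h
    simpa using h

end OneVariable

instance isAdicComplete_mvPowerSeries_fin {O : Type*} [CommRing O] [IsLocalRing O]
    [IsAdicComplete (maximalIdeal O) O] (n : ℕ) :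
    IsAdicComplete (maximalIdeal (MvPowerSeries (Fin n) O)) (MvPowerSeries (Fin n) O) := by
  induction n with
  | zero =>
    rw [← map_ringEquiv_maximalIdeal (MvPowerSeries.isEmptyEquiv (Fin 0) O).toRingEquiv.symm]
    exact (IsAdicComplete.congr_ringEquiv _ _).mpr ‹_›
  | succ n ih =>
    have := isAdicComplete_powerSeries (S := MvPowerSeries (Fin n) O)
    rw [← map_ringEquiv_maximalIdeal (MvPowerSeries.finSuccEquiv O n).toRingEquiv.symm]
    exact (IsAdicComplete.congr_ringEquiv _ _).mpr ‹_›

/-- `dim O[[x₁, …, xₙ]] = n + 1` for a discrete valuation ring `O`. -/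
theorem ringKrullDim_mvPowerSeries_fin (O : Type) [CommRing O] [IsDomain O]
    [IsDiscreteValuationRing O] (n : ℕ) :
    ringKrullDim (MvPowerSeries (Fin n) O) = (n + 1 : ℕ) := by
  obtain ⟨ϖ, hϖ⟩ := IsDiscreteValuationRing.exists_irreducible O
  have hm := CommAlg.ofList_psParams_eq_maximalIdeal n hϖ.maximalIdeal_eq
  have hreg : RingTheory.Sequence.IsRegular (MvPowerSeries (Fin n) O) (CommAlg.psParams n ϖ) :=
    ⟨CommAlg.isWeaklyRegular_psParams n hϖ.ne_zero, by
      rw [hm, smul_eq_mul, Ideal.mul_top]
      exact (maximalIdeal.isMaximal _).ne_top.symm⟩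
  rw [← ringKrullDim_add_length_eq_ringKrullDim_of_isRegular _ hreg, hm, CommAlg.length_psParams]
  have : IsField (MvPowerSeries (Fin n) O ⧸ maximalIdeal (MvPowerSeries (Fin n) O)) :=
    (Ideal.Quotient.maximal_ideal_iff_isField_quotient _).mp inferInstance
  rw [ringKrullDim_eq_zero_of_isField this, zero_add]

end Fermat.Agent.Patching
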