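import Fermat.Agent.Patching.Module

/-!
# Scalars of a patched module

`Patched.exists_scalar_span`: if a scalar acts through an element dying in a quotient `B`, so do
all its multiples.
-/

set_option autoImplicit false

namespace Fermat.Agent.Patching

variable {Λ A R : Type*} [CommRing Λ] [CommRing A] [CommRing R]
  {𝔞 : Ideal Λ} {I : Ideal R} {d : ℕ}

/-- Multiples of a scalar which dies in `B` die in `B`. -/
theorem Patched.exists_scalar_span {B : Type*} [CommRing B] (D : Patched Λ A R 𝔞 I d) {f : A →+* B}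
    {ϖ : Λ} {a₀ : A} (ha₀ : D.act a₀ = Matrix.scalar (Fin d) ϖ) (hf₀ : f a₀ = 0) :
    ∀ l ∈ Ideal.span {ϖ}, ∃ a : A, D.act a = Matrix.scalar (Fin d) l ∧ f a = 0 := by
  intro l hl
  obtain ⟨x, rfl⟩ := Ideal.mem_span_singleton'.mp hl
  obtain ⟨b, hb⟩ := D.exists_scalar x
  exact ⟨b * a₀, by rw [map_mul, hb, ha₀, ← map_mul], by rw [map_mul, hf₀, mul_zero]⟩

end Fermat.Agent.Patching
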